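import Fermat.Agent.RT.Mazur.OrdersSides

/-!
# Orders of the reductions of a Kummer function at level `q M`, `4 ∣ M`

If `div f` is divisible by `m`, the coefficients of `f` are fixed by inertia and both reductions
of `f` are nonzero, then the orders of both reductions are divisible by `m`: the reductions of
`L(div f / m + n ∞)` would not fit otherwise.
-/

set_option autoImplicit false
set_option synthInstance.maxHeartbeats 400000
set_option maxHeartbeats 1000000

noncomputable section

namespace Fermat.Agent.RT.Mazur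

open ModularCurve AlgebraicCurve Polynomial
open Fermat.Agent.Semistable Fermat.Agent.Arith

variable {A : ValuationSubring QBar} {q : ℕ} [hq : Fact q.Prime] [CharP (Res A) q]
  {M : ℕ} [NeZero M] [FF.IsFunctionField (Res A) (KM A M)] {hqM : ¬ q ∣ M}

/-- Dimension count: fixed vectors with independent reduction pairs fit into the product of a space
containing all first reductions and one containing the second reductions of those vanishing on the
first side. -/
theorem finrank_le_add {k V : Type*} [Field k] [AddCommGroup V] [Module k V] {L : ℕ}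
    (r : Fin L → Fin 2 → V) (hr : LinearIndependent k r) (T₀ T₁ : Submodule k V)
    [FiniteDimensional k T₀] [FiniteDimensional k T₁]
    (h0 : ∀ c : Fin L → k, ∑ a, c a • r a 0 ∈ T₀)
    (h1 : ∀ c : Fin L → k, ∑ a, c a • r a 0 = 0 → ∑ a, c a • r a 1 ∈ T₁) :
    L ≤ Module.finrank k T₀ + Module.finrank k T₁ := by
  classical
  let Φ : Fin 2 → (Fin L → k) →ₗ[k] V := fun s => Fintype.linearCombination k fun a => r a s
  have hΦ : ∀ s c, Φ s c = ∑ a, c a • r a s := fun s c => Fintype.linearCombination_apply ..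
  have hrange : LinearMap.range (Φ 0) ≤ T₀ := by
    rintro _ ⟨c, rfl⟩
    rw [hΦ]; exact h0 c
  have hkermap : (LinearMap.ker (Φ 0)).map (Φ 1) ≤ T₁ := by
    rintro _ ⟨c, hc, rfl⟩
    have hc' : Φ 0 c = 0 := hc
    rw [hΦ] at hc' ⊢
    exact h1 c hc'
  have hinj : Function.Injective ((Φ 1).comp (LinearMap.ker (Φ 0)).subtype) := by
    rw [← LinearMap.ker_eq_bot, Submodule.eq_bot_iff]
    rintro ⟨c, hc⟩ hc1
    have hc' : Φ 0 c = 0 := hc
    have hc1' : Φ 1 c = 0 := hc1
    rw [hΦ] at hc' hc1'
    refine Subtype.ext (funext (Fintype.linearIndependent_iff.mp hr c (funext fun s => ?_)))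
    rw [Finset.sum_apply]
    fin_cases s
    · exact hc'
    · exact hc1'
  have hker : Module.finrank k (LinearMap.ker (Φ 0)) ≤ Module.finrank k T₁ := by
    refine le_trans (le_of_eq ?_) (Submodule.finrank_mono hkermap)
    rw [← LinearMap.finrank_range_of_inj hinj, LinearMap.range_comp, Submodule.range_subtype]
  have hsum := LinearMap.finrank_range_add_finrank_ker (Φ 0)
  rw [Module.finrank_fin_fun] at hsum
  have := Submodule.finrank_mono hrange
  omega

/-- Combinations of vectors with fixed coefficients lift combinations of their reductions. -/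
theorem exists_fixed_lift (hA : A.LiesOverPrime q) (W : Submodule QBar (FB (q * M))) {L : ℕ}
    (w : Fin L → FB (q * M)) (hwl : ∀ a s, iota2 M q hqM s (w a) ∈ locS A) (hwW : ∀ a, w a ∈ W)
    (hwfix : ∀ a s, ∀ τ ∈ A.inertiaSubgroupIn ℚ,
      coeffMap (τ : QBar →+* QBar) (iota2 M q hqM s (w a)) = iota2 M q hqM s (w a))
    (c : Fin L → Res A) :
    ∃ y : loc2 A (iota2 M q hqM), (y : FB (q * M)) ∈ W ∧
      InertiaFixed A ((y : FB (q * M)) : LSer) ∧
      ∀ s, red2 A (iota2 M q hqM) y s = ∑ a, c a • redL A ⟨_, hwl a s⟩ := by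
  choose C hC hCfix hCred using fun a => MazurP.exists_inertiaFixed_lift hA hq.out (c a)
  have hmem : ∀ a, algebraMap QBar (FB (q * M)) (C a) ∈ loc2 A (iota2 M q hqM) := fun a =>
    (mem_loc2 _).mpr fun s => by rw [AlgHom.commutes]; exact algebraMap_mem_locS (hC a)
  have hwmem : ∀ a, w a ∈ loc2 A (iota2 M q hqM) := fun a => (mem_loc2 _).mpr (hwl a)
  refine ⟨∑ a, ⟨_, hmem a⟩ * ⟨_, hwmem a⟩, ?_, ?_, fun s => ?_⟩
  · push_cast
    refine W.sum_mem fun a _ => ?_
    rw [← Algebra.smul_def]
    exact W.smul_mem _ (hwW a)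
  · intro τ hτ
    push_cast
    rw [map_sum]
    refine Finset.sum_congr rfl fun a _ => ?_
    rw [map_mul]
    exact congrArg₂ (· * ·) (inertiaFixed_algebraMap (hCfix a) τ hτ)
      ((congrArg _ (iota2_zero M q hqM (w a))).symm.trans
        ((hwfix a 0 τ hτ).trans (iota2_zero M q hqM (w a))))
  · rw [map_sum, Finset.sum_apply]
    refine Finset.sum_congr rfl fun a _ => ?_
    rw [map_mul, Pi.mul_apply, red2_apply, red2_apply,
      redL_congr _ (algebraMap_mem_locS (hC a)) (AlgHom.commutes _ _), redL_algebraMap (hC a),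
      hCred a, ← HahnSeries.C_mul_eq_smul, algebraMap_laurentSeries_eq_single]
    rfl

/-- Orders on the first side. -/
theorem dvd_ord_red_zero_of_noEll (hA : A.LiesOverPrime q) (hE : nuTwo M = 0 ∧ nuThree M = 0)
    (hgM : GoodM A M) {m : ℕ} (hm : 0 < m)
    {F : loc2 A (iota2 M q hqM)} (hfix : InertiaFixed A ((F : FB (q * M)) : LSer))
    (hdiv : ∀ v : Place QBar (FB (q * M)), (m : ℤ) ∣ v.ord (F : FB (q * M)))
    (hne : ∀ s, red2 A (iota2 M q hqM) F s ≠ 0) (hM : (M : Res A) ≠ 0)
    (P : Place (Res A) (KM A M)) : (m : ℤ) ∣ P.ord (redK hM F 0) := by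
  classical
  have := residueField_isAlgClosed A
  have hz0 : ∀ s, redK hM F s ≠ 0 := fun s h => hne s (congrArg Subtype.val h)
  set f : FB (q * M) := (F : FB (q * M)) with hfdef
  have hf0 : f ≠ 0 := fun h => hne 0 (by rw [show F = 0 from Subtype.ext h, map_zero]; rfl)
  obtain ⟨ρ, hρ, hρpole⟩ := exists_rho (A := A) (q := q) (M := M)
  set z := redK hM F 0
  set t := redK hM F 1
  -- divisors
  set J : FB (q * M) := upF M q (jM M)
  set p := FF.poles QBar J
  set pk := FF.poles (Res A) (jK A M)
  set D : Divisor QBar (FB (q * M)) := divFloor (m : ℤ) (FF.div QBar f)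
  have hD : ∀ v, (m : ℤ) * D v = v.ord f := fun v => by
    rw [divFloor_apply, FF.div_apply]; exact Int.mul_ediv_cancel' (hdiv v)
  have hDdeg : Divisor.degree D = 0 := by
    have : (m : ℤ) • D = FF.div QBar f := Finsupp.ext fun v => by
      rw [Finsupp.smul_apply, smul_eq_mul, hD, FF.div_apply]
    have := congrArg Divisor.degree this
    rw [map_zsmul, FF.degree_div, smul_eq_mul] at this
    exact (mul_eq_zero.mp this).resolve_left (by exact_mod_cast hm.ne')
  set Dz : Divisor (Res A) (KM A M) := divFloor (m : ℤ) (FF.div (Res A) z)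
  set R : Divisor (Res A) (KM A M) := FF.div (Res A) ρ + ((q : ℤ) - 1) • pk
  have hR : ∀ v, R v = if v.ord (jK A M) < 0 then 0 else v.ord ρ := fun v => by
    rw [Finsupp.add_apply, Finsupp.smul_apply, FF.poles_apply, FF.div_apply, smul_eq_mul]
    split_ifs with hv
    · rw [hρpole v hv, max_eq_right (by omega)]; ring
    · rw [max_eq_left (by omega)]; ring
  set Q : Divisor (Res A) (KM A M) :=
    divFloor (12 * (m : ℤ)) ((12 : ℤ) • FF.div (Res A) t - (m : ℤ) • R)
  have hm' : (0 : ℤ) < m := by exact_mod_cast hm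
  have hdegJ : Divisor.degree p = dedekindPsi (q * M) := degree_poles_upF_jM M q
  have hdegk : Divisor.degree pk = dedekindPsi M := degree_poles_jK M hM
  have hQdeg : 12 * Divisor.degree Q ≤ -(((q : ℤ) - 1) * dedekindPsi M) := by
    have h := mul_degree_divFloor_le (k := 12 * (m : ℤ)) (by omega)
      ((12 : ℤ) • FF.div (Res A) t - (m : ℤ) • R)
    simp only [map_sub, map_zsmul, map_add, R, FF.degree_div, hdegk, smul_eq_mul] at h
    refine le_of_mul_le_mul_left ?_ hm'
    linarith
  -- large n
  obtain ⟨cN, hcN⟩ := FF.exists_ell_eq (K := QBar) (F := FB (q * M))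
  obtain ⟨ck, hck⟩ := FF.exists_ell_eq (K := Res A) (F := KM A M)
  set n : ℕ := cN.toNat + (ck - Divisor.degree Dz).toNat + (ck - Divisor.degree Q).toNat +
    (genusFF QBar (FB (q * M)) + 1) + (genusFF (Res A) (KM A M) + 1) +
    ((genusFF (Res A) (KM A M) : ℤ) - Divisor.degree Dz).toNat +
    ((genusFF (Res A) (KM A M) : ℤ) - Divisor.degree Q).toNat
  have hψ : (1 : ℤ) ≤ dedekindPsi M := by exact_mod_cast dedekindPsi_pos M
  have hψN : (dedekindPsi (q * M) : ℤ) = ((q : ℤ) + 1) * dedekindPsi M := by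
    rw [Gamma0.dedekindPsi_mul_of_not_dvd hq.out hqM]; push_cast; ring
  have hn1 : (n : ℤ) ≤ n * dedekindPsi M := le_mul_of_one_le_right (by omega) hψ
  have hψN1 : (1 : ℤ) ≤ dedekindPsi (q * M) := by exact_mod_cast dedekindPsi_pos (q * M)
  have hn2 : (n : ℤ) ≤ n * dedekindPsi (q * M) := le_mul_of_one_le_right (by omega) hψN1
  have hn3 : (n : ℤ) ≤ q * n * dedekindPsi M := by
    rw [mul_assoc]
    exact hn1.trans (le_mul_of_one_le_left (by positivity) (by exact_mod_cast hq.out.one_le))
  have hW := hcN (D + n • p) (by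
    simp only [map_add, map_nsmul, hDdeg, hdegJ, nsmul_eq_mul]; omega)
  have hT0 := hck (Dz + n • pk) (by
    simp only [map_add, map_nsmul, hdegk, nsmul_eq_mul]; omega)
  have hT1 := hck (Q + (q * n) • pk) (by
    simp only [map_add, map_nsmul, hdegk, nsmul_eq_mul]; push_cast; omega)
  simp only [map_add, map_nsmul, hDdeg, hdegJ, hdegk, nsmul_eq_mul, FF.ell, Nat.cast_mul]
    at hW hT0 hT1
  set W := riemannRochSpace (D + n • p)
  -- the space in terms of level functions
  have hWiff : ∀ y : FB (q * M), y ∈ W ↔ y ^ m * f ∈ HN M q (m * n) := by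
    intro y
    rcases eq_or_ne y 0 with rfl | hy
    · simp [zero_pow hm.ne']
    simp only [W, HN, mem_riemannRochSpace_iff, hy, mul_ne_zero (pow_ne_zero m hy) hf0, false_or,
      Finsupp.add_apply, Finsupp.smul_apply, nsmul_eq_mul]
    refine forall_congr' fun v => ?_
    rw [v.ord_mul (pow_ne_zero m hy) hf0, FF.ord_pow, ← hD v]
    push_cast
    constructor
    · intro h; nlinarith
    · intro h; nlinarith
  have hstable : ∀ τ ∈ A.inertiaSubgroupIn ℚ, ∀ y ∈ W,
      arithmeticRingAut (modularFunctionFieldFull (q * M)) τ y ∈ W := by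
    intro τ hτ y hy
    rw [hWiff] at hy ⊢
    have h := galF_mem_poles (q * M) (σ := τ) (y := J) (by rw [galF_upF, galF_jM]) hy
    rwa [map_mul, map_pow, show galF (q * M) τ f = f from
      Subtype.ext ((coe_arithmeticRingAut τ f).trans (hfix τ hτ))] at h
  have hWfin : FiniteDimensional QBar W := by
    refine FiniteDimensional.of_finrank_pos ?_
    have : (0 : ℤ) < (Module.finrank QBar W : ℤ) := by rw [hW]; omega
    exact_mod_cast this
  obtain ⟨w, hwl, hwW, hwfix, hwi⟩ := exists_fixed_redBasis hA hq.out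
    (le_refl (A.inertiaSubgroupIn ℚ)) (iota2 M q hqM) (iota2_fracS M q hqM)
    (fun τ hτ s y => by
      fin_cases s
      · exact coe_arithmeticRingAut τ y
      · refine (iota2_one M q hqM _).trans ?_
        rw [wEquiv_galois, coe_arithmeticRingAut]
        exact congrArg _ (iota2_one M q hqM y).symm) W hstable
  have : FiniteDimensional (Res A) (riemannRochSpace (Dz + n • pk)) :=
    FiniteDimensional.of_finrank_pos (by
      have : (0 : ℤ) < (Module.finrank (Res A) (riemannRochSpace (Dz + n • pk)) : ℤ) := by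
        rw [hT0]; omega
      exact_mod_cast this)
  have : FiniteDimensional (Res A) (riemannRochSpace (Q + (q * n) • pk)) :=
    FiniteDimensional.of_finrank_pos (by
      have : (0 : ℤ) < (Module.finrank (Res A) (riemannRochSpace (Q + (q * n) • pk)) : ℤ) := by
        rw [hT1]; omega
      exact_mod_cast this)
  set T₀ := (riemannRochSpace (Dz + n • pk)).map (valLin A M)
  set T₁ := (riemannRochSpace (Q + (q * n) • pk)).map (valLin A M)
  have hyF : ∀ y : loc2 A (iota2 M q hqM), (y : FB (q * M)) ∈ W →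
      ((y ^ m * F : loc2 A (iota2 M q hqM)) : FB (q * M)) ∈ HN M q (m * n) := fun y hy => by
    push_cast
    exact (hWiff _).mp hy
  have hkey : Module.finrank QBar W ≤ Module.finrank (Res A) T₀ + Module.finrank (Res A) T₁ := by
    refine finrank_le_add (fun a s => redL A ⟨_, hwl a s⟩) hwi T₀ T₁ (fun c => ?_) (fun c hc => ?_)
    · obtain ⟨y, hy, -, hys⟩ := exists_fixed_lift hA W w hwl hwW hwfix c
      rw [← hys 0]
      refine ⟨redK hM y 0, mem_riemannRochSpace_iff.mpr fun v => ?_, rfl⟩
      refine or_iff_not_imp_left.mpr fun ha => ?_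
      have h := pow_order_bound hA hM (hyF y hy) 0 ha (hz0 0) v
      simp only [Finsupp.add_apply, Finsupp.smul_apply, nsmul_eq_mul, Dz, divFloor_apply,
        FF.div_apply]
      simp only [sideDeg, Matrix.cons_val_zero] at h
      push_cast at h
      have : -(v.ord (redK hM y 0) + n * pk v) ≤ v.ord z / m := by
        rw [Int.le_ediv_iff_mul_le hm']; nlinarith
      linarith
    · obtain ⟨y, hy, hyfix, hys⟩ := exists_fixed_lift hA W w hwl hwW hwfix c
      rw [← hys 1]
      refine ⟨redK hM y 1, mem_riemannRochSpace_iff.mpr fun v => ?_, rfl⟩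
      refine or_iff_not_imp_left.mpr fun hb => ?_
      have h := pow_order_bound hA hM (hyF y hy) 1 hb (hz0 1) v
      simp only [sideDeg, Matrix.cons_val_one, Matrix.cons_val_fin_one] at h
      push_cast at h
      have : -(v.ord (redK hM y 1) + q * n * pk v) ≤ (12 * v.ord t - m * R v) / (12 * m) := by
        rw [Int.le_ediv_iff_mul_le (by omega), hR v]
        split_ifs with hv
        · nlinarith
        · have h' := unit_order_bound hA hM (hyF y hy) hyfix ((hys 0).trans hc) hb (hz0 1) hρ
            (not_lt.mp hv)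
          have hp0 : pk v = 0 := by rw [FF.poles_apply, max_eq_left (by omega)]
          rw [hp0]
          nlinarith
      simp only [Finsupp.add_apply, Finsupp.smul_apply, Finsupp.sub_apply, nsmul_eq_mul, Q,
        divFloor_apply, FF.div_apply, smul_eq_mul]
      push_cast
      linarith
  rw [← (Submodule.equivMapOfInjective _ (valLin_injective A M) _).finrank_eq,
    ← (Submodule.equivMapOfInjective _ (valLin_injective A M) _).finrank_eq] at hkey
  have hg : (genusFF QBar (FB M) : ℤ) ≤ genusFF (Res A) (KM A M) := by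
    exact_mod_cast hgM
  have hid := genus_identity_of_noEll (q := q) hqM hE
  have hDz : Divisor.degree (FF.div (Res A) z) ≤ m * Divisor.degree Dz := by
    rw [FF.degree_div]
    refine mul_nonneg hm'.le ?_
    have key : (Module.finrank QBar W : ℤ) ≤
        (Module.finrank (Res A) (riemannRochSpace (Dz + n • pk)) : ℤ) +
          (Module.finrank (Res A) (riemannRochSpace (Q + (q * n) • pk)) : ℤ) := by
      exact_mod_cast hkey
    rw [hW, hT0, hT1, hψN] at key
    linarith
  have hres := dvd_of_degree_divFloor hm' (FF.div (Res A) z) hDz P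
  rwa [FF.div_apply] at hres

/-- Orders on the first side, `4 ∣ M`. -/
theorem dvd_ord_red_zero (hA : A.LiesOverPrime q) (h4 : 4 ∣ M) {m : ℕ} (hm : 0 < m)
    {F : loc2 A (iota2 M q hqM)} (hfix : InertiaFixed A ((F : FB (q * M)) : LSer))
    (hdiv : ∀ v : Place QBar (FB (q * M)), (m : ℤ) ∣ v.ord (F : FB (q * M)))
    (hne : ∀ s, red2 A (iota2 M q hqM) F s ≠ 0) (hM : (M : Res A) ≠ 0)
    (P : Place (Res A) (KM A M)) : (m : ℤ) ∣ P.ord (redK hM F 0) :=
  dvd_ord_red_zero_of_noEll hA (RedTorsion.no_root_sq_add_one (Or.inl rfl) h4)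
    (goodM_of_dvd (A := A) (Or.inl rfl) h4 hM) hm hfix hdiv hne hM P

theorem ord_algEquiv_dvd {K F : Type*} [Field K] [Field F] [Algebra K F] (σ : F ≃ₐ[K] F) {m : ℤ}
    {f : F} (h : ∀ v : Place K F, m ∣ v.ord f) (v : Place K F) : m ∣ v.ord (σ f) := by
  rw [ord_algEquiv]; exact h _

/-- **Orders of the reductions.** Both reductions of an inertia-fixed Kummer function at level
`q M`, `M` good without elliptic points, have orders divisible by `m`. -/
theorem dvd_ord_red_of_noEll (hA : A.LiesOverPrime q) (hE : nuTwo M = 0 ∧ nuThree M = 0)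
    (hgM : GoodM A M) {m : ℕ} (hm : 0 < m)
    {F : loc2 A (iota2 M q hqM)} (hfix : InertiaFixed A ((F : FB (q * M)) : LSer))
    (hdiv : ∀ v : Place QBar (FB (q * M)), (m : ℤ) ∣ v.ord (F : FB (q * M)))
    (hne : ∀ s, red2 A (iota2 M q hqM) F s ≠ 0) (hM : (M : Res A) ≠ 0) (s : Fin 2)
    (P : Place (Res A) (KM A M)) : (m : ℤ) ∣ P.ord (redK hM F s) := by
  fin_cases s
  · exact dvd_ord_red_zero_of_noEll hA hE hgM hm hfix hdiv hne hM P
  · have hF := (mem_loc2_iff M q hqM).mp F.2
    have hF' : wEquiv q M hqM (F : FB (q * M)) ∈ loc2 A (iota2 M q hqM) := by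
      rw [mem_loc2_iff, wEquiv_wEquiv]; exact ⟨hF.2, hF.1⟩
    have e : ∀ s, red2 A (iota2 M q hqM) ⟨_, hF'⟩ s = red2 A (iota2 M q hqM) F (1 - s) := by
      intro s
      rw [red2_apply, red2_apply]
      refine congrArg _ (Subtype.ext ?_)
      fin_cases s
      · show iota2 M q hqM 0 _ = iota2 M q hqM 1 _
        rw [iota2_zero, iota2_one]
      · show iota2 M q hqM 1 _ = iota2 M q hqM 0 _
        rw [iota2_zero, iota2_one, wEquiv_wEquiv]
    have h := dvd_ord_red_zero_of_noEll (F := ⟨_, hF'⟩) hA hE hgM hm (fun τ hτ => ?_)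
      (ord_algEquiv_dvd _ hdiv) (fun s => by rw [e s]; exact hne _) hM P
    · rwa [show redK hM (⟨_, hF'⟩ : loc2 A (iota2 M q hqM)) 0 = redK hM F 1 from
        Subtype.ext (e 0)] at h
    · show coeffMap (τ : QBar →+* QBar) ((wEquiv q M hqM (F : FB (q * M)) : FB (q * M)) : LSer) = _
      rw [← coe_arithmeticRingAut, ← wEquiv_galois,
        show arithmeticRingAut (modularFunctionFieldFull (q * M)) τ (F : FB (q * M)) = F from
          Subtype.ext ((coe_arithmeticRingAut τ _).trans (hfix τ hτ))]

/-- **Orders of the reductions**, `4 ∣ M`. -/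
theorem dvd_ord_red (hA : A.LiesOverPrime q) (h4 : 4 ∣ M) {m : ℕ} (hm : 0 < m)
    {F : loc2 A (iota2 M q hqM)} (hfix : InertiaFixed A ((F : FB (q * M)) : LSer))
    (hdiv : ∀ v : Place QBar (FB (q * M)), (m : ℤ) ∣ v.ord (F : FB (q * M)))
    (hne : ∀ s, red2 A (iota2 M q hqM) F s ≠ 0) (hM : (M : Res A) ≠ 0) (s : Fin 2)
    (P : Place (Res A) (KM A M)) : (m : ℤ) ∣ P.ord (redK hM F s) :=
  dvd_ord_red_of_noEll hA (RedTorsion.no_root_sq_add_one (Or.inl rfl) h4)
    (goodM_of_dvd (A := A) (Or.inl rfl) h4 hM) hm hfix hdiv hne hM s P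

end Fermat.Agent.RT.Mazur

end
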