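import Fermat.Agent.Semistable.Classes
import Fermat.Agent.RT.Mazur.OrdersBasic

/-!
# A torsion class with trivial gluing is trivial

Let `div f = p D` at level `q M`, `4 ∣ M`, with both reductions of `f` constant.  If the gluing of
`D` is `1`, then `D` is principal: otherwise `J ^ n L(n ∞ + D) + L(n ∞ + D)`, with `J` the
`j`-function of level `M`, would have a direct sum of twice the dimension of `L(n ∞ + D)`, while
its reductions are forced into a smaller space.
-/

set_option autoImplicit false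
set_option synthInstance.maxHeartbeats 400000
set_option maxHeartbeats 1000000
set_option linter.unusedSectionVars false

noncomputable section

namespace Fermat.Agent.RT.Mazur

open ModularCurve AlgebraicCurve Polynomial
open Fermat.Agent.Semistable Fermat.Agent.Arith

variable {A : ValuationSubring QBar} {q : ℕ} [hq : Fact q.Prime] [CharP (Res A) q]
  {M : ℕ} [NeZero M] [FF.IsFunctionField (Res A) (KM A M)]

/-- A degree zero divisor with a nonzero section is principal. -/
theorem exists_principal_of_section {K F : Type*} [Field K] [Field F] [Algebra K F]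
    [IsAlgClosed K] [FF.IsFunctionField K F] {D : Divisor K F} (hD : Divisor.degree D = 0) {y : F}
    (hy : y ∈ riemannRochSpace D) (hy0 : y ≠ 0) : ∀ v, v.ord y⁻¹ = D v := by
  have h0 : (0 : Divisor K F) ≤ FF.div K y + D := Finsupp.le_def.mpr fun v => by
    have := FF.le_ord_of_mem_ordGe v hy0 (FF.mem_riemannRochSpace'.mp hy v)
    rw [Finsupp.add_apply, FF.div_apply, Finsupp.zero_apply]
    omega
  have hdeg : Divisor.degree (FF.div K y + D) = 0 := by rw [map_add, FF.degree_div, hD, add_zero]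
  intro v
  have hz : (FF.div K y + D) v = 0 := by
    by_contra h
    have h1 : (1 : ℤ) ≤ (FF.div K y + D) v := by
      have := Finsupp.le_def.mp h0 v
      rw [Finsupp.zero_apply] at this
      omega
    have h2 : Finsupp.single v (1 : ℤ) ≤ FF.div K y + D := Finsupp.le_def.mpr fun w => by
      rcases eq_or_ne w v with rfl | hw
      · rwa [Finsupp.single_eq_same]
      · rw [Finsupp.single_eq_of_ne hw]
        exact Finsupp.le_def.mp h0 w
    have h3 := FF.degree_mono h2
    rw [hdeg, Divisor.degree_single, FF.deg_eq_one] at h3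
    omega
  rw [Finsupp.add_apply, FF.div_apply] at hz
  rw [v.ord_inv]
  omega

/-- Two functions can be scaled to integral functions one of which has a nonzero reduction. -/
theorem exists_scale_two (hA : A.LiesOverPrime q) {F : Type*} [Field F] [Algebra QBar F]
    {S : Type*} [Finite S] [Nonempty S] (ι : S → (F →ₐ[QBar] LSer))
    (hfrac : ∀ s x, ι s x ∈ fracS A) {y y' : F} (h : y ≠ 0 ∨ y' ≠ 0) :
    ∃ c : QBar, c ≠ 0 ∧ ∃ hy : c • y ∈ loc2 A ι, ∃ hy' : c • y' ∈ loc2 A ι,
      red2 A ι ⟨_, hy⟩ ≠ 0 ∨ red2 A ι ⟨_, hy'⟩ ≠ 0 := by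
  have key : ∀ z : F, z ≠ 0 → ∃ c : QBar, c ≠ 0 ∧ ∃ hz : c • z ∈ loc2 A ι,
      red2 A ι ⟨_, hz⟩ ≠ 0 := by
    intro z hz
    obtain ⟨hf, hd⟩ := finrank_redSub q hA ι hfrac (Submodule.span QBar {z})
    rw [finrank_span_singleton hz] at hd
    obtain ⟨r, hr, hr0⟩ := Submodule.exists_mem_ne_zero_of_ne_bot
      (p := redSub A ι (Submodule.span QBar {z})) fun hb => by
        rw [hb, finrank_bot] at hd
        omega
    obtain ⟨⟨x, hx'⟩, hx, rfl⟩ := mem_redSub.mp hr
    obtain ⟨c, rfl⟩ := Submodule.mem_span_singleton.mp hx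
    refine ⟨c, fun hc => hr0 ?_, hx', hr0⟩
    subst hc
    rw [show (⟨(0 : QBar) • z, hx'⟩ : loc2 A ι) = 0 from Subtype.ext (zero_smul _ z)]
    exact map_zero _
  have hsmul : ∀ {a : QBar}, a ∈ A → ∀ {z : F}, z ∈ loc2 A ι → a • z ∈ loc2 A ι := by
    intro a ha z hz
    rw [Algebra.smul_def]
    exact mul_mem (algebraMap_mem_loc2 ι ha) hz
  rcases eq_or_ne y 0 with rfl | hy0
  · obtain ⟨c, hc, hz, hz'⟩ := key y' (h.resolve_left (fun h => h rfl))
    exact ⟨c, hc, by rw [smul_zero]; exact zero_mem _, hz, Or.inr hz'⟩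
  rcases eq_or_ne y' 0 with rfl | hy0'
  · obtain ⟨c, hc, hz, hz'⟩ := key y hy0
    exact ⟨c, hc, hz, by rw [smul_zero]; exact zero_mem _, Or.inl hz'⟩
  obtain ⟨c, hc, hz, hzr⟩ := key y hy0
  obtain ⟨c', hc', hz', hzr'⟩ := key y' hy0'
  rcases A.mem_or_inv_mem (c / c') with hd | hd
  · refine ⟨c, hc, hz, ?_, Or.inl hzr⟩
    have := hsmul hd hz'
    rwa [smul_smul, div_mul_cancel₀ _ hc'] at this
  · refine ⟨c', hc', ?_, hz', Or.inr hzr'⟩
    rw [inv_div] at hd
    have := hsmul hd hz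
    rwa [smul_smul, div_mul_cancel₀ _ hc] at this

theorem finrank_sup_lt {k V : Type*} [Field k] [AddCommGroup V] [Module k V] (S T : Submodule k V)
    [FiniteDimensional k S] [FiniteDimensional k T] {z : V} (hz : z ≠ 0) (hS : z ∈ S)
    (hT : z ∈ T) :
    Module.finrank k (S ⊔ T : Submodule k V) + 1 ≤ Module.finrank k S + Module.finrank k T := by
  have h := Submodule.finrank_sup_add_finrank_inf_eq S T
  have : 0 < Module.finrank k (S ⊓ T : Submodule k V) :=
    Submodule.one_le_finrank_iff.mpr fun hb => hz (by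
      have : z ∈ S ⊓ T := ⟨hS, hT⟩
      rwa [hb] at this)
  omega

variable (h : Setup A M q)

theorem pi_smul_apply' (c : Res A) (r : Fin 2 → LaurentSeries (Res A)) (s : Fin 2) :
    (c • r) s = algebraMap (Res A) (LaurentSeries (Res A)) c * r s := by
  rw [Pi.smul_apply, Igusa.hsmul_eq]

theorem mul_pi_smul (c : Res A) (r r' : Fin 2 → LaurentSeries (Res A)) :
    r * (c • r') = c • (r * r') := by
  funext s
  rw [Pi.mul_apply, pi_smul_apply', pi_smul_apply', Pi.mul_apply]
  exact mul_left_comm _ _ _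

theorem pi_smul_mul (c : Res A) (r r' : Fin 2 → LaurentSeries (Res A)) :
    (c • r) * r' = c • (r * r') := by
  rw [mul_comm, mul_pi_smul, mul_comm]

theorem pi_smul_pow (c : Res A) (r : Fin 2 → LaurentSeries (Res A)) (k : ℕ) :
    (c • r) ^ k = c ^ k • r ^ k := by
  funext s
  rw [Pi.pow_apply, pi_smul_apply', pi_smul_apply', Pi.pow_apply, mul_pow, map_pow]

/-- Multiplication of pairs by a pair. -/
def mulPair (r : Fin 2 → LaurentSeries (Res A)) :
    (Fin 2 → LaurentSeries (Res A)) →ₗ[Res A] (Fin 2 → LaurentSeries (Res A)) where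
  toFun x := r * x
  map_add' := mul_add r
  map_smul' c x := mul_pi_smul c r x

/-- The `k`-th power of `j` in both expansions. -/
def jPow (A : ValuationSubring QBar) (q k : ℕ) [NeZero q] : Fin 2 → LaurentSeries (Res A) :=
  ![jqModC (Res A) ^ k, qExpand (Res A) q (jqModC (Res A)) ^ k]

theorem jPow_add (a b : ℕ) : jPow A q (a + b) = jPow A q a * jPow A q b := by
  funext s; fin_cases s <;> simp [jPow, pow_add]

theorem jPow_mul (a b : ℕ) : jPow A q (a * b) = jPow A q a ^ b := by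
  funext s; fin_cases s <;> simp [jPow, pow_mul]

theorem jPow_ne_zero (k : ℕ) (s : Fin 2) : jPow A q k s ≠ 0 := by
  have hj : jqModC (Res A) ≠ 0 := fun h => transcendental_jqModC (Res A) (h ▸ isAlgebraic_zero)
  fin_cases s
  · exact pow_ne_zero k hj
  · exact pow_ne_zero k ((_root_.map_ne_zero _).mpr hj)

theorem jPow_apply (k : ℕ) (s : Fin 2) :
    jPow A q k s = (((jK A M) ^ (sideDeg q s * k) : KM A M) : LaurentSeries (Res A)) := by
  rw [IntermediateField.coe_pow, coe_jK]
  fin_cases s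
  · simp [jPow, sideDeg]
  · show qExpand (Res A) q (jqModC (Res A)) ^ k = jqModC (Res A) ^ (q * k)
    rw [pow_mul, pow_eq_qExpand_gen_one]

theorem jK_pow_mem_Hk (k : ℕ) : jK A M ^ k ∈ Hk A M k := by
  induction k with
  | zero => rw [pow_zero]; exact one_mem_polesSpace _ _
  | succ k ih =>
    rw [pow_succ]
    refine mul_mem_polesSpace ih ?_
    rw [RedTorsion.mem_polesSpace]
    intro v
    refine FF.mem_ordGe_of_le v ?_
    rw [FF.poles_apply, Nat.cast_one, one_mul]
    omega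

theorem mul_mem_Pk {a b : ℕ} {r r' : Fin 2 → LaurentSeries (Res A)} (hr : r ∈ Pk A M q a)
    (hr' : r' ∈ Pk A M q b) : r * r' ∈ Pk A M q (a + b) := by
  rw [mem_Pk] at hr hr' ⊢
  obtain ⟨h0, h0'⟩ := (mem_HkS A M).mp hr.1
  obtain ⟨h1, h1'⟩ := (mem_HkS A M).mp hr.2
  obtain ⟨g0, g0'⟩ := (mem_HkS A M).mp hr'.1
  obtain ⟨g1, g1'⟩ := (mem_HkS A M).mp hr'.2
  rw [mul_add]
  exact ⟨coe_mem_HkS.mpr (mul_mem_polesSpace h0' g0'), coe_mem_HkS.mpr (mul_mem_polesSpace h1' g1')⟩

theorem jPow_mem_Pk (k : ℕ) : jPow A q k ∈ Pk A M q k := by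
  rw [mem_Pk, jPow_apply (M := M), jPow_apply (M := M)]
  exact ⟨coe_mem_HkS.mpr (by simpa [sideDeg] using jK_pow_mem_Hk k),
    coe_mem_HkS.mpr (by simpa [sideDeg] using jK_pow_mem_Hk (q * k))⟩

/-- Cancelling a power of `j` lowers the pole bounds. -/
theorem cancel_jPow {a a' b k : ℕ} {r : Fin 2 → LaurentSeries (Res A)} (hr : r ∈ Pk A M q a)
    (hkr : jPow A q k * r ∈ Pk A M q b) (hb : b ≤ k + a') : r ∈ Pk A M q a' := by
  have key : ∀ s, r s ∈ HkS A M (sideDeg q s * a') := by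
    intro s
    rw [Pk, Submodule.mem_pi] at hr hkr
    obtain ⟨h0, h0'⟩ := (mem_HkS A M).mp (hr s trivial)
    obtain ⟨g0, g0'⟩ := (mem_HkS A M).mp (hkr s trivial)
    refine (mem_HkS A M).mpr ⟨h0, cancel_poles (μ := jK A M ^ (sideDeg q s * k))
      (e := sideDeg q s * k) (fun v hv => ⟨pow_ne_zero _ fun h => by simp [h] at hv, ?_⟩)
      (b' := sideDeg q s * b) (by rw [← mul_add]; exact Nat.mul_le_mul_left _ hb) h0' ?_⟩
    · rw [FF.ord_pow]
    · convert g0' using 1
      exact Subtype.ext (by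
        rw [IntermediateField.coe_mul, ← jPow_apply (M := M)]
        rfl)
  rw [Pk, Submodule.mem_pi]
  exact fun s _ => key s

/-- The meeting points exist. -/
theorem nonempty_pt_of_noEll (hE : nuTwo M = 0 ∧ nuThree M = 0) : Nonempty (Pt h) := by
  have := Arith.residueField_isAlgClosed A
  obtain ⟨n₁, hfin, hn₁⟩ := h.exists_gap
  obtain ⟨n₂, hn₂⟩ := exists_finrank_eq (A := A) M q h.hM
  have hn : n₂ ≤ n₁ + n₂ := Nat.le_add_left _ _
  obtain ⟨a1, a2, a3⟩ := hn₂ _ hn
  obtain ⟨-, -, b3⟩ := hn₂ (q * (n₁ + n₂)) (hn.trans (Nat.le_mul_of_pos_left _ hq.out.pos))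
  have hle : (genusFF (Res A) (KM A M) : ℤ) ≤ genusFF QBar (FB M) := by
    obtain ⟨hf, hd⟩ := finrank_redSub q h.hA (iota1 M) (fun _ x => mem_fracS_of_mem x)
      (HM M (n₁ + n₂))
    let pr : (Unit → LaurentSeries (Res A)) →ₗ[Res A] LaurentSeries (Res A) := LinearMap.proj ()
    have hp : Function.Injective pr := fun a b e => funext fun _ => e
    have hsub : (redSub A (iota1 M) (HM M (n₁ + n₂))).map pr ≤ HkS A M (n₁ + n₂) := by
      rintro _ ⟨s, hs, rfl⟩
      obtain ⟨x, hx, rfl⟩ := mem_redSub.mp hs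
      exact red1_mem_HkS M q h.hA h.hM hx
    have : FiniteDimensional (Res A) (HkS A M (n₁ + n₂)) := by unfold HkS; infer_instance
    have e := Submodule.finrank_mono hsub
    rw [← (Submodule.equivMapOfInjective pr hp _).finrank_eq, hd, finrank_HkS] at e
    omega
  have hid := genus_identity_of_noEll (M := M) h.hqM hE
  have hψ : (dedekindPsi (q * M) : ℤ) = (q + 1) * dedekindPsi M := by
    rw [Gamma0.dedekindPsi_mul_of_not_dvd hq.out h.hqM]; push_cast; ring
  obtain ⟨-, hdim⟩ := hn₁ _ (Nat.le_add_right n₁ n₂)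
  rw [Module.finrank_prod, (finrank_Bn M q h.hqM h.hA _).2] at hdim
  have hpos : (0 : ℤ) < ((q : ℤ) - 1) * dedekindPsi M :=
    mul_pos (by have := hq.out.two_le; omega) (by exact_mod_cast dedekindPsi_pos M)
  obtain ⟨hfin', hcard, -⟩ := h.bijective_pt
  refine (Nat.card_pos_iff.mp (Nat.pos_of_ne_zero fun h0 => ?_)).1
  rw [hcard] at h0
  rw [h0, add_zero] at hdim
  rw [hψ] at a2
  push_cast at b3
  have hdimZ : ((Module.finrank (Res A) (Hk A M (n₁ + n₂)) : ℤ) +
      Module.finrank (Res A) (Hk A M (q * (n₁ + n₂)))) =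
        Module.finrank QBar (HN M q (n₁ + n₂)) := by exact_mod_cast hdim
  push_cast at a2 a3
  nlinarith

theorem nonempty_pt (h4 : 4 ∣ M) : Nonempty (Pt h) :=
  nonempty_pt_of_noEll h (RedTorsion.no_root_sq_add_one (Or.inl rfl) h4)

/-- Reductions of constant shape are diagonal. -/
theorem exists_smul_one_of_mem_of_noEll (hE : nuTwo M = 0 ∧ nuThree M = 0) : ∃ n₀ : ℕ, ∀ n, n₀ ≤ n →
    ∀ r ∈ Bn A M q h.hqM n, r ∈ Pk A M q 0 → ∃ β : Res A, r = β • 1 := by
  have := Arith.residueField_isAlgClosed A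
  obtain ⟨n₁, hn₁⟩ := h.exists_glued
  obtain ⟨χ⟩ := nonempty_pt_of_noEll h hE
  refine ⟨n₁, fun n hn r hr hr0 => ?_⟩
  rw [mem_Pk, mul_zero] at hr0
  have hconst : ∀ z ∈ HkS A M 0, ∃ b : Res A, z = algebraMap (Res A) _ b := by
    intro z hz
    obtain ⟨hz0, hz'⟩ := (mem_HkS A M).mp hz
    have h1 : Module.finrank (Res A) (riemannRochSpace (0 : Divisor (Res A) (KM A M))) = 1 :=
      by
        have := FF.ell_zero (K := Res A) (F := KM A M)
        simp only [FF.ell] at this
        exact_mod_cast this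
    have hone : (1 : KM A M) ∈ riemannRochSpace (0 : Divisor (Res A) (KM A M)) := by
      have := one_mem_polesSpace (K := Res A) (jK A M) 0
      rwa [zero_nsmul] at this
    rw [Hk, zero_nsmul] at hz'
    obtain ⟨b, hb⟩ := exists_smul_eq_of_finrank_eq_one h1
      (x := (⟨1, hone⟩ : riemannRochSpace (0 : Divisor (Res A) (KM A M))))
      (fun e => one_ne_zero (congrArg Subtype.val e)) ⟨_, hz'⟩
    refine ⟨b, ?_⟩
    have e := congrArg (fun x : riemannRochSpace (0 : Divisor (Res A) (KM A M)) => (x : KM A M)) hb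
    simp only [Submodule.coe_smul] at e
    rw [← Algebra.algebraMap_eq_smul_one] at e
    exact (congrArg Subtype.val e).symm
  obtain ⟨b0, hb0⟩ := hconst _ hr0.1
  obtain ⟨b1, hb1⟩ := hconst _ hr0.2
  have e : r = ![serR A M (algebraMap (Res A) _ b0), serR A M (algebraMap (Res A) _ b1)] := by
    rw [serR_algebraMap, serR_algebraMap, ← hb0, ← hb1]
    funext s; fin_cases s <;> rfl
  have hrel := h.rel_of_glued (c := 1) (n := n) (by rw [(hn₁ n hn).2, ← e]; exact hr) χ
  rw [AlgHom.commutes, AlgHom.commutes, Pi.one_apply, one_mul, Algebra.algebraMap_self,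
    RingHom.id_apply, RingHom.id_apply] at hrel
  refine ⟨b0, funext fun s => ?_⟩
  rw [Pi.smul_apply, Pi.one_apply, Igusa.hsmul_eq, mul_one]
  fin_cases s
  · exact hb0
  · exact hb1.trans (by rw [hrel])

theorem exists_smul_one_of_mem (h4 : 4 ∣ M) : ∃ n₀ : ℕ, ∀ n, n₀ ≤ n →
    ∀ r ∈ Bn A M q h.hqM n, r ∈ Pk A M q 0 → ∃ β : Res A, r = β • 1 :=
  exists_smul_one_of_mem_of_noEll h (RedTorsion.no_root_sq_add_one (Or.inl rfl) h4)

/-- **A torsion class with trivial gluing is trivial.** -/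
theorem exists_principal_of_isGlue_one_of_noEll (hE : nuTwo M = 0 ∧ nuThree M = 0) {D : Divisor QBar (FB (q * M))} {p : ℕ}
    (hp : (p : Res A) ≠ 0) (f : loc2 A (iota2 M q h.hqM))
    (hord : ∀ v, v.ord (f : FB (q * M)) = (p : ℤ) * D v)
    (a : Fin 2 → Res A) (ha : ∀ s, a s ≠ 0)
    (hred : ∀ s, red2 A (iota2 M q h.hqM) f s = algebraMap (Res A) _ (a s))
    (hglue : IsGlue h D 1) : ∃ y : FB (q * M), y ≠ 0 ∧ ∀ v, v.ord y = D v := by
  classical
  have hp0 : p ≠ 0 := fun h0 => hp (by simp [h0])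
  have hdeg := degree_eq_zero_of_kummer hp0 hord
  by_contra hnp
  have hL0 : ∀ y ∈ riemannRochSpace D, y = (0 : FB (q * M)) := fun y hy => by
    by_contra hy0
    exact hnp ⟨y⁻¹, inv_ne_zero hy0, exists_principal_of_section hdeg hy hy0⟩
  -- the gluing forces equal constants
  obtain ⟨χ⟩ := nonempty_pt_of_noEll h hE
  have ha01 : a 0 = a 1 := by
    obtain ⟨c, hc, hc'⟩ := h.exists_isGlue hp0 f hord a ha hred
    have := hc' χ
    rw [h.isGlue_unique hc hglue, Pi.one_apply, one_pow, mul_one] at this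
    exact this.symm
  have hf : red2 A (iota2 M q h.hqM) f = a 0 • 1 := by
    funext s
    rw [hred, Pi.smul_apply, Pi.one_apply, Igusa.hsmul_eq, mul_one]
    fin_cases s
    · rfl
    · exact congrArg _ ha01.symm
  obtain ⟨n₁, hn₁⟩ := exists_finrank_HD (M := M) (q := q)
  obtain ⟨n₂, hn₂⟩ := hglue
  obtain ⟨n₃, hn₃⟩ := h.exists_glued
  obtain ⟨n₄, hn₄⟩ := h.exists_descend
  obtain ⟨n₅, hn₅⟩ := exists_smul_one_of_mem_of_noEll h hE
  set n := n₁ + n₂ + n₃ + n₄ + n₅ + 1 with hn
  have hpn : n ≤ p * n := Nat.le_mul_of_pos_left n (Nat.pos_of_ne_zero hp0)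
  have hV : LD A h.hqM D n = Bn A M q h.hqM n := by
    rw [hn₂ n (by omega), (hn₃ n (by omega)).2]
  set V := HD M q D n with hVdef
  set J : loc2 A (iota2 M q h.hqM) := upParam M h.hqM ⟨jM M, jM_mem M⟩ with hJ
  have hJval : (J : FB (q * M)) = upF M q (jM M) := rfl
  have hredJ : ∀ k, red2 A (iota2 M q h.hqM) (J ^ k) = jPow A q k := by
    intro k
    have e : red2 A (iota2 M q h.hqM) J =
        ![jqModC (Res A), qExpand (Res A) q (jqModC (Res A))] := by
      rw [hJ]
      exact (red2_upF M q h.hqM ⟨jM M, jM_mem M⟩).trans (by rw [red1_jM])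
    rw [map_pow, e]
    funext s; fin_cases s <;> simp [jPow]
  have hJpow : ∀ k, ((J : FB (q * M)) ^ k) ∈ HN M q k := by
    intro k
    induction k with
    | zero => rw [pow_zero]; exact one_mem_polesSpace _ _
    | succ k ih =>
      rw [pow_succ]
      refine mul_mem_polesSpace ih ?_
      rw [RedTorsion.mem_polesSpace]
      intro v
      refine FF.mem_ordGe_of_le v ?_
      rw [hJval, FF.poles_apply, Nat.cast_one, one_mul]
      omega
  have hJ0 : ∀ k, ((J : FB (q * M)) ^ k) ≠ 0 := fun k => pow_ne_zero k fun h0 => by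
    have := hredJ 1
    rw [pow_one, show J = 0 from Subtype.ext h0, map_zero] at this
    exact jPow_ne_zero (A := A) (q := q) 1 0 (congrFun this.symm 0)
  set μ := LinearMap.mulLeft QBar ((J : FB (q * M)) ^ n) with hμ
  have hμinj : Function.Injective μ := mul_right_injective₀ (hJ0 n)
  -- the direct sum
  have hinf : V.map μ ⊓ V = ⊥ := by
    rw [Submodule.eq_bot_iff]
    rintro _ ⟨⟨y, hy, rfl⟩, hy'⟩
    suffices hy0 : y = 0 by rw [hy0]; exact map_zero μ
    by_contra hy0
    refine hy0 (hL0 y (FF.mem_riemannRochSpace'.mpr fun v => ?_))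
    have h1 := (mem_HD M q).mp hy v
    by_cases hv : v.ord (upF M q (jM M)) < 0
    · have hy'' : (J : FB (q * M)) ^ n * y ∈ V := hy'
      have h2 := FF.le_ord_of_mem_ordGe v (mul_ne_zero (hJ0 n) hy0) ((mem_HD M q).mp hy'' v)
      rw [v.ord_mul (hJ0 n) hy0, FF.ord_pow, hJval, FF.poles_apply,
        max_eq_right (by omega)] at h2
      exact FF.mem_ordGe_of_le v (by linarith)
    · rw [FF.poles_apply, max_eq_left (by omega), mul_zero, zero_add] at h1
      exact h1
  set N := Module.finrank QBar (HN M q n) with hN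
  have hdimV : Module.finrank QBar V = N := hn₁ D hdeg n (by omega)
  have hdimW : Module.finrank QBar (V.map μ ⊔ V : Submodule QBar (FB (q * M))) = N + N := by
    have := Submodule.finrank_sup_add_finrank_inf_eq (V.map μ) V
    rw [hinf, finrank_bot, add_zero, ← (Submodule.equivMapOfInjective μ hμinj V).finrank_eq,
      hdimV] at this
    exact this
  obtain ⟨hWfin, hWdim⟩ := finrank_redSub q h.hA _ (iota2_fracS M q h.hqM) (V.map μ ⊔ V)
  rw [hdimW] at hWdim
  -- the reductions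
  have hBn : ∀ m, (1 : Fin 2 → LaurentSeries (Res A)) ∈ Bn A M q h.hqM m := h.one_mem_Bn
  have hjB : ∀ m, jPow A q m ∈ Bn A M q h.hqM m := fun m =>
    mem_redSub.mpr ⟨J ^ m, by rw [SubmonoidClass.coe_pow]; exact hJpow m, hredJ m⟩
  have hu0 : ∀ m, jPow A q m ≠ (0 : Fin 2 → LaurentSeries (Res A)) := fun m h0 =>
    jPow_ne_zero (A := A) (q := q) m 0 (congrFun h0 0)
  let mu : ℕ → ((Fin 2 → LaurentSeries (Res A)) →ₗ[Res A] (Fin 2 → LaurentSeries (Res A))) :=
    fun m => mulPair (jPow A q m)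
  have hmu : ∀ m, Function.Injective (mu m) := fun m x y e => funext fun s =>
    mul_left_cancel₀ (jPow_ne_zero m s) (congrFun e s)
  let S : ℕ → Submodule (Res A) (Fin 2 → LaurentSeries (Res A)) := fun m =>
    (Bn A M q h.hqM m).map (mu m) ⊔ Bn A M q h.hqM m
  have hBfin : ∀ m, FiniteDimensional (Res A) (Bn A M q h.hqM m) :=
    fun m => (finrank_Bn M q h.hqM h.hA m).1
  have hSlt : Module.finrank (Res A) (S n) < N + N := by
    have := hBfin n
    have h1 := finrank_sup_lt ((Bn A M q h.hqM n).map (mu n)) (Bn A M q h.hqM n)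
      (z := jPow A q n) (hu0 n) ⟨1, hBn n, mul_one (jPow A q n)⟩ (hjB n)
    rw [← (Submodule.equivMapOfInjective (mu n) (hmu n) _).finrank_eq,
      (finrank_Bn M q h.hqM h.hA n).2] at h1
    show Module.finrank (Res A) ((Bn A M q h.hqM n).map (mu n) ⊔ Bn A M q h.hqM n :
      Submodule (Res A) _) < N + N
    omega
  obtain ⟨t, htW, htS⟩ := SetLike.not_le_iff_exists.mp (show
      ¬ redSub A (iota2 M q h.hqM) (V.map μ ⊔ V) ≤ S n from fun hle => by
    have := hBfin n
    have : FiniteDimensional (Res A) (S n) := inferInstanceAs (FiniteDimensional (Res A)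
      ((Bn A M q h.hqM n).map (mu n) ⊔ Bn A M q h.hqM n :
        Submodule (Res A) (Fin 2 → LaurentSeries (Res A))))
    have := Submodule.finrank_mono hle
    omega)
  obtain ⟨w, hw, rfl⟩ := mem_redSub.mp htW
  obtain ⟨_, ⟨y, hy, rfl⟩, y', hy', hwyy⟩ := Submodule.mem_sup.mp hw
  have hwyy' : (J : FB (q * M)) ^ n * y + y' = w := hwyy
  have hw0 : y ≠ 0 ∨ y' ≠ 0 := by
    by_contra h0
    push_neg at h0
    refine htS ?_
    rw [show w = 0 from Subtype.ext (by rw [← hwyy', h0.1, h0.2, mul_zero, add_zero]; rfl),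
      map_zero]
    exact zero_mem _
  obtain ⟨c, hc, hcy, hcy', hne⟩ :=
    exists_scale_two h.hA _ (iota2_fracS M q h.hqM) hw0
  set x : loc2 A (iota2 M q h.hqM) := ⟨_, hcy⟩ with hx
  set z : loc2 A (iota2 M q h.hqM) := -⟨_, hcy'⟩ with hz
  have hxV : (x : FB (q * M)) ∈ V := Submodule.smul_mem _ c hy
  have hzV : (z : FB (q * M)) ∈ V := neg_mem (Submodule.smul_mem _ c hy')
  have hrel : ((J ^ n * x - z : loc2 A (iota2 M q h.hqM)) : FB (q * M)) = c • (w : FB (q * M)) := by
    rw [← hwyy', hx, hz]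
    push_cast
    rw [sub_neg_eq_add, mul_smul_comm, smul_add]
  have hxB : red2 A (iota2 M q h.hqM) x ∈ Bn A M q h.hqM n :=
    hV ▸ mem_redSub.mpr ⟨x, hxV, rfl⟩
  have hzB : red2 A (iota2 M q h.hqM) z ∈ Bn A M q h.hqM n :=
    hV ▸ mem_redSub.mpr ⟨z, hzV, rfl⟩
  have hcmem : c ∈ A := by
    by_contra hcA
    have hci : c⁻¹ ∈ A.nonunits := by
      rw [ValuationSubring.mem_nonunits_iff, map_inv₀]
      have := (A.valuation_le_one_iff c).not.mpr hcA
      exact inv_lt_one₀ (lt_trans zero_lt_one (not_le.mp this)) |>.mpr (not_le.mp this)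
    refine htS ?_
    have hmem : c⁻¹ ∈ A := A.nonunits_subset hci
    have e : w = ⟨_, algebraMap_mem_loc2 _ hmem⟩ * (J ^ n * x - z) := Subtype.ext (by
      rw [Subring.coe_mul, hrel, ← Algebra.smul_def, smul_smul, inv_mul_cancel₀ hc, one_smul])
    rw [e, map_mul]
    convert zero_mem (S n) using 1
    funext s
    rw [Pi.mul_apply, red2_const (c := ⟨c⁻¹, hmem⟩), (residue_eq_zero_iff hmem).mpr hci, map_zero,
      zero_mul]
    rfl
  -- the reduction of `c`
  have hcred : red2 A (iota2 M q h.hqM) (J ^ n * x - z) =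
      IsLocalRing.residue A ⟨c, hcmem⟩ • red2 A (iota2 M q h.hqM) w := by
    rw [show J ^ n * x - z = ⟨_, algebraMap_mem_loc2 _ hcmem⟩ * w from Subtype.ext (by
      rw [hrel, Subring.coe_mul, Algebra.smul_def]), map_mul]
    funext s
    rw [Pi.mul_apply, red2_const (c := ⟨c, hcmem⟩), Pi.smul_apply, Igusa.hsmul_eq]
  have hbarS : red2 A (iota2 M q h.hqM) (J ^ n * x - z) ∈ S n := by
    rw [map_sub, map_mul, hredJ]
    exact sub_mem (Submodule.mem_sup_left ⟨_, hxB, rfl⟩) (Submodule.mem_sup_right hzB)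
  have hcbar : IsLocalRing.residue A ⟨c, hcmem⟩ = 0 := by
    by_contra hc0
    refine htS ?_
    rw [hcred] at hbarS
    have := Submodule.smul_mem (S n) (IsLocalRing.residue A ⟨c, hcmem⟩)⁻¹ hbarS
    rwa [smul_smul, inv_mul_cancel₀ hc0, one_smul] at this
  rw [hcbar, zero_smul, map_sub, map_mul, hredJ, sub_eq_zero] at hcred
  -- the reductions of `x` and `z` are constant
  obtain ⟨β, hβ⟩ := hn₅ n (by omega) _ hxB (cancel_jPow (Bn_le_Pk M q h.hqM h.hA h.hM n hxB)
    (by rw [hcred]; exact Bn_le_Pk M q h.hqM h.hA h.hM n hzB) (by omega))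
  have hzβ : red2 A (iota2 M q h.hqM) z = β • jPow A q n := by
    rw [← hcred, hβ, mul_pi_smul, mul_one]
  have hβ0 : β ≠ 0 := by
    rintro rfl
    rw [zero_smul] at hβ hzβ
    rw [hz, map_neg, neg_eq_zero] at hzβ
    exact hne.elim (fun h' => h' hβ) (fun h' => h' hzβ)
  -- the space of the powers
  set μ' := LinearMap.mulLeft QBar ((J : FB (q * M)) ^ (n * p)) with hμ'
  have hμ'inj : Function.Injective μ' := mul_right_injective₀ (hJ0 _)
  set P := n * p with hP
  have hnP : n ≤ P := Nat.le_mul_of_pos_right n (Nat.pos_of_ne_zero hp0)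
  obtain ⟨hW'fin, hW'dim⟩ := finrank_redSub q h.hA _ (iota2_fracS M q h.hqM)
    ((HN M q P).map μ' ⊔ HN M q P)
  have hWS : redSub A (iota2 M q h.hqM) ((HN M q P).map μ' ⊔ HN M q P) = S P := by
    have := hBfin P
    have : FiniteDimensional (Res A) (S P) := inferInstanceAs (FiniteDimensional (Res A)
      ((Bn A M q h.hqM P).map (mu P) ⊔ Bn A M q h.hqM P :
        Submodule (Res A) (Fin 2 → LaurentSeries (Res A))))
    refine (Submodule.eq_of_le_of_finrank_le ?_ ?_).symm
    · refine sup_le ?_ ?_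
      · rintro _ ⟨r, hr, rfl⟩
        obtain ⟨e, he, rfl⟩ := mem_redSub.mp hr
        refine mem_redSub.mpr ⟨J ^ P * e, Submodule.mem_sup_left ⟨_, he, ?_⟩, ?_⟩
        · push_cast; rfl
        · rw [map_mul, hredJ]; rfl
      · intro r hr
        obtain ⟨e, he, rfl⟩ := mem_redSub.mp hr
        exact mem_redSub.mpr ⟨e, Submodule.mem_sup_right he, rfl⟩
    · have h1 := finrank_sup_lt ((HN M q P).map μ') (HN M q P) (z := (J : FB (q * M)) ^ P)
        (hJ0 P) ⟨1, one_mem_polesSpace _ _, mul_one ((J : FB (q * M)) ^ P)⟩ (hJpow P)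
      rw [← (Submodule.equivMapOfInjective μ' hμ'inj _).finrank_eq] at h1
      have h2 := Submodule.finrank_sup_add_finrank_inf_eq ((Bn A M q h.hqM P).map (mu P))
        (Bn A M q h.hqM P)
      rw [← (Submodule.equivMapOfInjective (mu P) (hmu P) _).finrank_eq,
        (finrank_Bn M q h.hqM h.hA P).2] at h2
      have h3 : Module.finrank (Res A) ((Bn A M q h.hqM P).map (mu P) ⊓ Bn A M q h.hqM P :
          Submodule (Res A) (Fin 2 → LaurentSeries (Res A))) ≤ 1 := by
        refine (Submodule.finrank_mono (t := Submodule.span (Res A) {jPow A q P}) ?_).trans ?_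
        · rintro _ ⟨⟨r, hr, rfl⟩, hr'⟩
          obtain ⟨b, rfl⟩ := hn₅ P (by omega) r hr (cancel_jPow
            (Bn_le_Pk M q h.hqM h.hA h.hM P hr) (Bn_le_Pk M q h.hqM h.hA h.hM P hr') (by omega))
          exact Submodule.mem_span_singleton.mpr ⟨b, by
            show b • jPow A q P = jPow A q P * (b • 1)
            rw [mul_pi_smul, mul_one]⟩
        · exact le_of_eq (finrank_span_singleton (hu0 P))
      show Module.finrank (Res A) _ ≤ Module.finrank (Res A)
        ((Bn A M q h.hqM P).map (mu P) ⊔ Bn A M q h.hqM P : Submodule (Res A) _)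
      rw [hW'dim]
      omega
  -- the key element
  set s : loc2 A (iota2 M q h.hqM) :=
    ∑ i ∈ Finset.range p, (J ^ n * x) ^ i * z ^ (p - 1 - i) with hs
  have hsred : red2 A (iota2 M q h.hqM) s = ((p : Res A) * β ^ (p - 1)) • jPow A q (n * (p - 1)) := by
    have hterm : ∀ i ∈ Finset.range p, red2 A (iota2 M q h.hqM) ((J ^ n * x) ^ i * z ^ (p - 1 - i))
        = β ^ (p - 1) • jPow A q (n * (p - 1)) := by
      intro i hi
      rw [Finset.mem_range] at hi
      rw [map_mul, map_pow, map_pow, map_mul, hredJ, hβ, mul_pi_smul, mul_one, hzβ, ← pow_add,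
        Nat.add_sub_cancel' (show i ≤ p - 1 by omega), pi_smul_pow, jPow_mul]
    rw [hs, map_sum, Finset.sum_congr rfl hterm, Finset.sum_const, Finset.card_range,
      mul_smul, Nat.cast_smul_eq_nsmul (Res A)]
  have hg : ∀ e : loc2 A (iota2 M q h.hqM), (e : FB (q * M)) ∈ V →
      (e : FB (q * M)) ^ p * f ∈ HN M q P := fun e he => by
    rw [hP, mul_comm n p]
    exact pow_mul_mem_HN he hord
  have hGW : ((w * (s * f) : loc2 A (iota2 M q h.hqM)) : FB (q * M)) ∈
      (HN M q P).map μ' ⊔ HN M q P := by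
    have e : c • ((w * (s * f) : loc2 A (iota2 M q h.hqM)) : FB (q * M)) =
        (J : FB (q * M)) ^ P * ((x : FB (q * M)) ^ p * f) - (z : FB (q * M)) ^ p * f := by
      have hgeo : s * (J ^ n * x - z) = (J ^ n * x) ^ p - z ^ p := geom_sum₂_mul _ _ _
      have := congrArg (fun u : loc2 A (iota2 M q h.hqM) => (u : FB (q * M)) * f) hgeo
      simp only [Subring.coe_mul, hrel, AddSubgroupClass.coe_sub, SubmonoidClass.coe_pow] at this
      rw [Subring.coe_mul, Subring.coe_mul, hP, pow_mul]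
      rw [mul_pow] at this
      linear_combination (norm := (simp only [Algebra.smul_def]; ring)) this
    have := Submodule.smul_mem ((HN M q P).map μ' ⊔ HN M q P) c⁻¹
      (sub_mem (Submodule.mem_sup_left ⟨_, hg x hxV, rfl⟩) (Submodule.mem_sup_right (hg z hzV)))
    rwa [show μ' ((x : FB (q * M)) ^ p * f) = (J : FB (q * M)) ^ P * ((x : FB (q * M)) ^ p * f)
      from rfl, ← e, smul_smul, inv_mul_cancel₀ hc, one_smul] at this
  have hG := mem_redSub.mpr ⟨_, hGW, rfl⟩
  rw [hWS, map_mul, map_mul, hsred, hf] at hG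
  set κ := (p : Res A) * β ^ (p - 1) * a 0 with hκ
  have hκ0 : κ ≠ 0 := mul_ne_zero (mul_ne_zero hp (pow_ne_zero _ hβ0)) (ha 0)
  obtain ⟨_, ⟨r, hr, rfl⟩, r', hr', hsum⟩ := Submodule.mem_sup.mp hG
  set t := red2 A (iota2 M q h.hqM) w with ht
  have hsum' : jPow A q P * r + r' = κ • (jPow A q (n * (p - 1)) * t) := by
    refine hsum.trans ?_
    rw [mul_pi_smul, mul_one, smul_smul, mul_pi_smul, mul_comm t, mul_comm (a 0), hκ]
  have hPn : P = n * (p - 1) + n := by
    rw [hP, ← Nat.mul_succ, Nat.succ_eq_add_one, Nat.sub_add_cancel (Nat.pos_of_ne_zero hp0)]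
  have htB : t ∈ Bn A M q h.hqM (n + n) := by
    have hW2 : (w : FB (q * M)) ∈ HD M q D (n + n) := by
      refine (sup_le ?_ (HD_mono D (Nat.le_add_right n n)) :
        V.map μ ⊔ V ≤ HD M q D (n + n)) hw
      rintro _ ⟨e, he, rfl⟩
      have := mul_mem_HD (D := 0) (x := (J : FB (q * M)) ^ n) (by rw [HD_zero]; exact hJpow n) he
      rw [zero_add] at this
      exact this
    have := mem_redSub.mpr ⟨w, hW2, rfl⟩
    rwa [show redSub A (iota2 M q h.hqM) (HD M q D (n + n)) = LD A h.hqM D (n + n) from rfl,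
      hn₂ _ (by omega), (hn₃ _ (by omega)).2] at this
  have hPk : ∀ {m : ℕ} {e : Fin 2 → LaurentSeries (Res A)}, e ∈ Bn A M q h.hqM m →
      e ∈ Pk A M q m := fun he => Bn_le_Pk M q h.hqM h.hA h.hM _ he
  have hrPk : r ∈ Pk A M q n := by
    refine cancel_jPow (k := P) (b := n * (p - 1) + (n + n)) (hPk hr) ?_ (by omega)
    rw [eq_sub_of_add_eq hsum']
    exact sub_mem (Submodule.smul_mem _ κ (mul_mem_Pk (jPow_mem_Pk _) (hPk htB)))
      (Pk_mono A M q (by omega) (hPk hr'))
  have hrB : r ∈ Bn A M q h.hqM n := hn₄ n (by omega) P hnP r hr hrPk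
  set ρ := κ • t - jPow A q n * r with hρ
  have hρB : ρ ∈ Bn A M q h.hqM (n + n) :=
    sub_mem (Submodule.smul_mem _ κ htB) (h.mul_mem_Bn (hjB n) hrB)
  have hρr : jPow A q (n * (p - 1)) * ρ = r' := by
    rw [hρ, mul_sub, ← mul_assoc, ← jPow_add, ← hPn, mul_pi_smul, ← hsum', add_sub_cancel_left]
  have hρn : ρ ∈ Bn A M q h.hqM n := hn₄ n (by omega) (n + n) (by omega) ρ hρB
    (cancel_jPow (k := n * (p - 1)) (b := P) (hPk hρB) (hρr ▸ hPk hr') (by omega))
  refine htS ?_
  have et : t = κ⁻¹ • (jPow A q n * r + ρ) := by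
    rw [hρ, add_sub_cancel, smul_smul, inv_mul_cancel₀ hκ0, one_smul]
  rw [et]
  exact Submodule.smul_mem (S n) _
    (add_mem (Submodule.mem_sup_left ⟨r, hrB, rfl⟩) (Submodule.mem_sup_right hρn))

theorem exists_principal_of_isGlue_one (h4 : 4 ∣ M) {D : Divisor QBar (FB (q * M))} {p : ℕ}
    (hp : (p : Res A) ≠ 0) (f : loc2 A (iota2 M q h.hqM))
    (hord : ∀ v, v.ord (f : FB (q * M)) = (p : ℤ) * D v)
    (a : Fin 2 → Res A) (ha : ∀ s, a s ≠ 0)
    (hred : ∀ s, red2 A (iota2 M q h.hqM) f s = algebraMap (Res A) _ (a s))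
    (hglue : IsGlue h D 1) : ∃ y : FB (q * M), y ≠ 0 ∧ ∀ v, v.ord y = D v :=
  exists_principal_of_isGlue_one_of_noEll h (RedTorsion.no_root_sq_add_one (Or.inl rfl) h4) hp f hord a ha hred hglue

end Fermat.Agent.RT.Mazur

end
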